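import Mathlib
import Fermat.Agent.S37.Diff.OrdBounds
import Fermat.Agent.S37.Diff.CanonicalCount
import Fermat.Agent.S18.A.InfinityDual
import Fermat.Agent.S18.A.PoleBridge
import Fermat.Agent.S18.NonSpecial

/-!
# PROJECT U (S34), node count (NC), step (T4): the dimension of the dualizing space of a
two-component nodal curve

`k` algebraically closed, `κ/k` a function field with separating element `x`, Riemann genus `g`,
`canDiv = div(dx)`.

* `riemannRochSpace_canDiv_add_single` : for a place `a` at which `x` is regular,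
  `L(canDiv + a) = L(canDiv)` (the residue theorem for one simple pole, in trace-dual language:
  `Tr_{κ/k(x)} z` is a polynomial divided by `x - x(a)` and is `O(x⁻²)` at infinity, so it is `0`).
* `ell_canDiv_add_sumPlaces_le` : `l(canDiv + ∑_{a ∈ T} a) ≤ g + (|T| - 1)`.
* `finrank_pair_le` : a subspace `G ≤ V₁ × V₂` with `pr₁ G ⊆ W₁` and `G ∩ (0 × V₂) ⊆ 0 × W₂` has
  `dim G ≤ dim W₁ + dim W₂`.
* `finrank_nodal_le` : **(T4)** for two function fields `κ₁, κ₂` and `G ≤ κ₁ × κ₂` such that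
  `z₁ ∈ L(canDiv₁ + ∑ T₁)` for `(z₁, z₂) ∈ G` and `z₂ ∈ L(canDiv₂)` for `(0, z₂) ∈ G`:
  `dim_k G ≤ g₁ + (|T₁| - 1) + g₂`  (`= p_a - 0` of the nodal curve when `|T₁| = δ ≥ 1`).
* `genus_le_of_reduction` : **(NC)** if a `K`-space of dimension `g` has a basis whose "reductions"
  in `κ₁ × κ₂` are `k`-linearly independent and lie in such a `G`, then
  `g ≤ g₁ + (|T₁| - 1) + g₂`.
-/

set_option autoImplicit false

namespace Fermat.Agent.S34.Nodal.DualizingDim

open AlgebraicCurve IntermediateField Polynomial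
  Fermat.Agent.S24.FF Fermat.Agent.S24.Ord Fermat.Agent.S24.Fibre
  Fermat.Agent.S18.A Fermat.Agent.S18.A.Defs Fermat.Agent.S18.A.InfinityDual
  Fermat.Agent.S18.A.Infinity Fermat.Agent.S37.Diff.OrdBounds

universe u w

variable {K : Type w} {F : Type u} [Field K] [Field F] [Algebra K F] [IsAlgClosed K] {x : F}

/-- the canonical divisor at a place where `x` is regular -/
theorem canDiv_of_regular (hx : IsFF K x) (hsep : Algebra.IsSeparable K⟮x⟯ F) {v : Place K F}
    (hv : v.adicValuation x ≤ 1) : canDiv hx hsep v = (diffExp hx hsep v : ℤ) := by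
  rw [canDiv_apply]
  have h0 : 0 ≤ v.ord x := (ord_nonneg_iff v hx.ne_zero).mpr hv
  rw [max_eq_right (by omega)]
  ring

/-- the canonical divisor at a pole of `x` -/
theorem canDiv_of_pole (hx : IsFF K x) (hsep : Algebra.IsSeparable K⟮x⟯ F) {v : Place K F}
    (hv : 1 < v.adicValuation x) :
    canDiv hx hsep v = 2 * v.ord x + (diffExp hx hsep v : ℤ) := by
  rw [canDiv_apply]
  have h0 : v.ord x < 0 := (ord_neg_iff v hx.ne_zero).mpr hv
  rw [max_eq_left (by omega)]
  ring

/-- `L(canDiv)` in the language of the two dual conditions -/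
theorem mem_canDiv_iff_conds (hx : IsFF K x) (hsep : Algebra.IsSeparable K⟮x⟯ F) (z : F) :
    z ∈ riemannRochSpace (canDiv hx hsep) ↔
      (∀ Q : Place K F, Q.adicValuation x ≤ 1 → -(diffExp hx hsep Q : ℤ) ≤ Q.ord z) ∧
      (∀ Q : Place K F, 1 < Q.adicValuation x → -(diffExp hx hsep Q : ℤ) ≤ Q.ord (x ^ 2 * z)) := by
  have hx0 : x ≠ 0 := hx.ne_zero
  rcases eq_or_ne z 0 with rfl | hz
  · simp only [zero_mem, mul_zero, Place.ord_zero, true_iff]
    exact ⟨fun Q _ => by omega, fun Q _ => by omega⟩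
  rw [mem_riemannRochSpace_iff]
  constructor
  · intro h
    refine ⟨fun Q hQ => ?_, fun Q hQ => ?_⟩
    · have h1 := (h Q).resolve_left hz
      rw [canDiv_of_regular hx hsep hQ] at h1
      exact h1
    · have h1 := (h Q).resolve_left hz
      rw [canDiv_of_pole hx hsep hQ] at h1
      rw [Place.ord_mul Q (pow_ne_zero 2 hx0) hz, ord_pow]
      push_cast
      linarith
  · rintro ⟨h1, h2⟩ v
    right
    rcases le_or_gt (v.adicValuation x) 1 with hv | hv
    · rw [canDiv_of_regular hx hsep hv]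
      exact h1 v hv
    · rw [canDiv_of_pole hx hsep hv]
      have h3 := h2 v hv
      rw [Place.ord_mul v (pow_ne_zero 2 hx0) hz, ord_pow] at h3
      push_cast at h3
      linarith


/-! ### the residue theorem for one simple pole -/

/-- a nonzero polynomial in `x` has order `≤ 0` at a pole of `x` -/
theorem ord_le_zero_of_mem_polyRing (hx : IsFF K x) {Q : Place K F} (hQ : Q.ord x < 0) {s : F}
    (hs : s ∈ polyRing K x) (hs0 : s ≠ 0) : Q.ord s ≤ 0 := by
  have hs' : s ∈ Algebra.adjoin K {x} := hs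
  rw [Algebra.adjoin_singleton_eq_range_aeval] at hs'
  obtain ⟨p, rfl⟩ := hs'
  have hp : p ≠ 0 := by
    rintro rfl
    exact hs0 (map_zero _)
  change Q.ord (aeval x p) ≤ 0
  rw [Chart.ord_aeval_of_pole hx.transcendental Q hQ hp]
  have : (0 : ℤ) ≤ (p.natDegree : ℤ) := Int.natCast_nonneg _
  nlinarith

/-- **one simple pole is impossible**: `L(canDiv + a) = L(canDiv)` at a place where `x` is
regular; membership form -/
theorem mem_canDiv_of_mem_add_single (hx : IsFF K x) (hsep : Algebra.IsSeparable K⟮x⟯ F)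
    {a : Place K F} (ha : a.adicValuation x ≤ 1) {z : F}
    (hz : z ∈ riemannRochSpace (canDiv hx hsep + Finsupp.single a 1)) :
    z ∈ riemannRochSpace (canDiv hx hsep) := by
  classical
  rcases eq_or_ne z 0 with rfl | hz0
  · exact zero_mem _
  have hx0 : x ≠ 0 := hx.ne_zero
  -- the orders of `z`
  have hord : ∀ v : Place K F, -(canDiv hx hsep v) - (if a = v then 1 else 0) ≤ v.ord z := by
    intro v
    have h1 := ((mem_riemannRochSpace_iff.mp hz) v).resolve_left hz0
    rw [Finsupp.add_apply, Finsupp.single_apply] at h1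
    split_ifs at h1 ⊢ <;> linarith
  -- the pole part of the condition is untouched
  have hpole : ∀ Q : Place K F, 1 < Q.adicValuation x →
      -(diffExp hx hsep Q : ℤ) ≤ Q.ord (x ^ 2 * z) := by
    intro Q hQ
    have haQ : a ≠ Q := by
      rintro rfl
      exact absurd ha (not_le.mpr hQ)
    have h1 := hord Q
    rw [if_neg haQ, canDiv_of_pole hx hsep hQ] at h1
    rw [Place.ord_mul Q (pow_ne_zero 2 hx0) hz0, ord_pow]
    push_cast
    linarith
  -- test functions vanishing at `a`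
  have hA : ∀ b : F, b ∈ intRing K x → a.adicValuation b < 1 →
      trF K⟮x⟯ (z * b) ∈ polyRing K x := by
    intro b hb hba
    have h1 := (dual_intRing hx hsep (z * b)).mpr ?_ 1 (one_mem _)
    · rw [mul_one] at h1
      exact h1
    intro Q hQ
    rcases eq_or_ne b 0 with rfl | hb0
    · rw [mul_zero, Place.ord_zero]
      omega
    have hbQ : 0 ≤ Q.ord b :=
      (ord_nonneg_iff Q hb0).mpr ((mem_intRing_iff hx hsep b).mp hb Q hQ)
    rw [Place.ord_mul Q hz0 hb0]
    have h2 := hord Q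
    rw [canDiv_of_regular hx hsep hQ] at h2
    by_cases haQ : a = Q
    · subst haQ
      have h3 : 0 < a.ord b := (ord_pos_iff a hb0).mpr hba
      rw [if_pos rfl] at h2
      omega
    · rw [if_neg haQ] at h2
      omega
  -- the centre of `a`
  obtain ⟨c, hc⟩ := exists_sub_lt_one hx a ha
  have hu0 : x - algebraMap K F c ≠ 0 := sub_ne_zero.mpr (hx.ne_algebraMap c)
  have hxE : x ∈ K⟮x⟯ := IntermediateField.mem_adjoin_simple_self K x
  have hcE : ∀ e : K, algebraMap K F e ∈ K⟮x⟯ := fun e => K⟮x⟯.algebraMap_mem e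
  have huE : x - algebraMap K F c ∈ K⟮x⟯ := sub_mem hxE (hcE c)
  have huint : x - algebraMap K F c ∈ intRing K x := by
    rw [mem_intRing_iff hx hsep]
    intro Q hQ
    exact Valuation.map_sub_le _ hQ ((mem_iff Q _).mp (Q.algebraMap_mem' c))
  -- the trace of `z` vanishes
  have ht : trF K⟮x⟯ z = 0 := by
    by_contra ht0
    have h1 := hA _ huint hc
    rw [mul_comm, trF_mul_of_mem _ huE] at h1
    have h2 : trF K⟮x⟯ (x ^ 2 * z * 1) ∈ Ooo K x :=
      (oooDual_iff_poleCond hx hsep (x ^ 2 * z)).mpr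
        ((poleCond_iff_ord hx hsep _).mpr hpole) 1 (one_mem _)
    rw [mul_one, trF_mul_of_mem _ (pow_mem hxE 2)] at h2
    obtain ⟨Q, hQ⟩ := PoleBridge.exists_pole hx hsep
    have hQ' : 1 < Q.adicValuation x := (ord_neg_iff Q hx0).mp hQ
    have h3 : 0 ≤ Q.ord (x ^ 2 * trF K⟮x⟯ z) := (mem_Ooo_iff_ord.mp h2) Q hQ'
    rw [Place.ord_mul Q (pow_ne_zero 2 hx0) ht0, ord_pow] at h3
    have h4 : Q.ord ((x - algebraMap K F c) * trF K⟮x⟯ z) ≤ 0 :=
      ord_le_zero_of_mem_polyRing hx hQ h1 (mul_ne_zero hu0 ht0)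
    rw [Place.ord_mul Q hu0 ht0, FibreSep.ord_sub_of_ord_neg Q c hQ] at h4
    push_cast at h3
    omega
  -- all test functions
  rw [mem_canDiv_iff_conds]
  refine ⟨?_, hpole⟩
  rw [← dual_intRing hx hsep z]
  intro b hb
  have hba : a.adicValuation b ≤ 1 := (mem_intRing_iff hx hsep b).mp hb a ha
  obtain ⟨e, he⟩ := exists_sub_lt_one hx a hba
  have hbe : b - algebraMap K F e ∈ intRing K x := by
    rw [mem_intRing_iff hx hsep]
    intro Q hQ
    exact Valuation.map_sub_le _ ((mem_intRing_iff hx hsep b).mp hb Q hQ)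
      ((mem_iff Q _).mp (Q.algebraMap_mem' e))
  have h1 := hA _ hbe he
  have h2 : z * b = z * (b - algebraMap K F e) + algebraMap K F e * z := by ring
  change trF K⟮x⟯ (z * b) ∈ polyRing K x
  rw [h2, trF_add, trF_mul_of_mem _ (hcE e), ht, mul_zero, add_zero]
  exact h1

/-- **one simple pole is impossible**: `L(canDiv + a) = L(canDiv)` -/
theorem riemannRochSpace_canDiv_add_single (hx : IsFF K x) (hsep : Algebra.IsSeparable K⟮x⟯ F)
    {a : Place K F} (ha : a.adicValuation x ≤ 1) :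
    riemannRochSpace (canDiv hx hsep + Finsupp.single a 1) =
      riemannRochSpace (canDiv hx hsep) := by
  refine le_antisymm (fun z hz => mem_canDiv_of_mem_add_single hx hsep ha hz) ?_
  apply Fermat.Agent.S18.NonSpecial.riemannRochSpace_mono
  have := Fermat.Agent.S18.NonSpecial.single_nonneg a
  exact le_add_of_nonneg_right this


/-! ### several simple poles -/

/-- `l(canDiv) = g`, in `finrank` form -/
theorem finrank_canDiv (hx : IsFF K x) (hsep : Algebra.IsSeparable K⟮x⟯ F) {g : ℕ}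
    (hR : Fermat.Agent.S18.NonSpecial.RiemannHyp K F g) :
    Module.finrank K (riemannRochSpace (canDiv hx hsep)) = g :=
  Fermat.Agent.S37.Diff.CanonicalCount.ell_canonical hx hsep hR

/-- **`δ` simple poles cost `δ - 1` dimensions**: `l(canDiv + ∑_{a ∈ T} a) ≤ g + (|T| - 1)` for a
finite set `T` of places at which `x` is regular. -/
theorem finrank_canDiv_add_sumPlaces_le (hx : IsFF K x) (hsep : Algebra.IsSeparable K⟮x⟯ F)
    {g : ℕ} (hR : Fermat.Agent.S18.NonSpecial.RiemannHyp K F g) (T : Finset (Place K F))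
    (hT : ∀ a ∈ T, a.adicValuation x ≤ 1) :
    Module.finrank K (riemannRochSpace
      (canDiv hx hsep + Fermat.Agent.S18.NonSpecial.sumPlaces T)) ≤ g + (T.card - 1) := by
  classical
  induction T using Finset.induction_on with
  | empty =>
    rw [Fermat.Agent.S18.NonSpecial.sumPlaces_empty, add_zero, finrank_canDiv hx hsep hR]
    omega
  | insert Q T hQ ih =>
    rw [Fermat.Agent.S18.NonSpecial.sumPlaces_insert hQ, ← add_assoc,
      Finset.card_insert_of_notMem hQ]
    rcases T.eq_empty_or_nonempty with rfl | hne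
    · rw [Fermat.Agent.S18.NonSpecial.sumPlaces_empty, add_zero,
        riemannRochSpace_canDiv_add_single hx hsep (hT Q (Finset.mem_insert_self _ _)),
        finrank_canDiv hx hsep hR]
      omega
    · have h1 := Fermat.Agent.S18.NonSpecial.ell_add_single_le hR.finite
        (canDiv hx hsep + Fermat.Agent.S18.NonSpecial.sumPlaces T) (hR.deg_one Q)
      have h2 := ih fun a ha => hT a (Finset.mem_insert_of_mem ha)
      have h3 : 1 ≤ T.card := hne.card_pos
      unfold Fermat.Agent.S18.NonSpecial.ell at h1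
      omega

/-! ### the pair bound (linear algebra) -/

section Pair

variable {k : Type*} {V₁ : Type*} {V₂ : Type*} [Field k] [AddCommGroup V₁] [Module k V₁]
  [AddCommGroup V₂] [Module k V₂]

/-- a subspace `G ≤ V₁ × V₂` whose first projection lies in `W₁` and whose elements `(0, z₂)`
have `z₂ ∈ W₂` has dimension at most `dim W₁ + dim W₂` -/
theorem finrank_pair_le (G : Submodule k (V₁ × V₂)) (W₁ : Submodule k V₁) (W₂ : Submodule k V₂)
    [Module.Finite k W₁] [Module.Finite k W₂]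
    (h1 : ∀ p ∈ G, p.1 ∈ W₁) (h2 : ∀ p ∈ G, p.1 = 0 → p.2 ∈ W₂) :
    Module.Finite k G ∧ Module.finrank k G ≤ Module.finrank k W₁ + Module.finrank k W₂ := by
  let f : G →ₗ[k] W₁ :=
    { toFun := fun p => ⟨p.1.1, h1 p.1 p.2⟩
      map_add' := fun p q => rfl
      map_smul' := fun c p => rfl }
  let j : LinearMap.ker f →ₗ[k] W₂ :=
    { toFun := fun p => ⟨p.1.1.2, h2 p.1.1 p.1.2 (by
        have := LinearMap.mem_ker.mp p.2
        exact congrArg Subtype.val this)⟩
      map_add' := fun p q => rfl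
      map_smul' := fun c p => rfl }
  have hj : Function.Injective j := by
    intro p q hpq
    have h2' : p.1.1.2 = q.1.1.2 := congrArg Subtype.val hpq
    have hp : p.1.1.1 = 0 := congrArg Subtype.val (LinearMap.mem_ker.mp p.2)
    have hq : q.1.1.1 = 0 := congrArg Subtype.val (LinearMap.mem_ker.mp q.2)
    exact Subtype.ext (Subtype.ext (Prod.ext (hp.trans hq.symm) h2'))
  have hkerfin : Module.Finite k (LinearMap.ker f) := Module.Finite.of_injective j hj
  have hrangefin : Module.Finite k (LinearMap.range f) := inferInstance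
  have hquot : Module.Finite k (G ⧸ LinearMap.ker f) :=
    Module.Finite.equiv f.quotKerEquivRange.symm
  have hGfin : Module.Finite k G := Module.Finite.of_submodule_quotient (LinearMap.ker f)
  refine ⟨hGfin, ?_⟩
  have hrk := LinearMap.finrank_range_add_finrank_ker f
  have h3 : Module.finrank k (LinearMap.range f) ≤ Module.finrank k W₁ :=
    Submodule.finrank_le _
  have h4 : Module.finrank k (LinearMap.ker f) ≤ Module.finrank k W₂ :=
    LinearMap.finrank_le_finrank_of_injective hj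
  omega

end Pair

/-! ### (T4): the dualizing space of a two-component nodal curve -/

section Nodal

variable {k : Type w} [Field k] [IsAlgClosed k]
  {κ₁ : Type u} [Field κ₁] [Algebra k κ₁] {κ₂ : Type u} [Field κ₂] [Algebra k κ₂]
  {x₁ : κ₁} {x₂ : κ₂}

/-- **(T4)** `G ≤ κ₁ × κ₂` with `z₁ ∈ L(canDiv₁ + ∑_{a ∈ T₁} a)` for all `(z₁, z₂) ∈ G` and
`z₂ ∈ L(canDiv₂)` for all `(0, z₂) ∈ G` has `dim_k G ≤ g₁ + (|T₁| - 1) + g₂`. -/
theorem finrank_nodal_le (hx₁ : IsFF k x₁) (hsep₁ : Algebra.IsSeparable k⟮x₁⟯ κ₁)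
    (hx₂ : IsFF k x₂) (hsep₂ : Algebra.IsSeparable k⟮x₂⟯ κ₂) {g₁ g₂ : ℕ}
    (hR₁ : Fermat.Agent.S18.NonSpecial.RiemannHyp k κ₁ g₁)
    (hR₂ : Fermat.Agent.S18.NonSpecial.RiemannHyp k κ₂ g₂)
    (T₁ : Finset (Place k κ₁)) (hT₁ : ∀ a ∈ T₁, a.adicValuation x₁ ≤ 1)
    (G : Submodule k (κ₁ × κ₂))
    (h1 : ∀ p ∈ G, p.1 ∈ riemannRochSpace
      (canDiv hx₁ hsep₁ + Fermat.Agent.S18.NonSpecial.sumPlaces T₁))
    (h2 : ∀ p ∈ G, p.1 = 0 → p.2 ∈ riemannRochSpace (canDiv hx₂ hsep₂)) :
    Module.Finite k G ∧ Module.finrank k G ≤ g₁ + (T₁.card - 1) + g₂ := by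
  have := hR₁.finite (canDiv hx₁ hsep₁ + Fermat.Agent.S18.NonSpecial.sumPlaces T₁)
  have := hR₂.finite (canDiv hx₂ hsep₂)
  obtain ⟨hfin, hle⟩ := finrank_pair_le G _ _ h1 h2
  refine ⟨hfin, hle.trans ?_⟩
  have h3 := finrank_canDiv_add_sumPlaces_le hx₁ hsep₁ hR₁ T₁ hT₁
  have h4 := finrank_canDiv hx₂ hsep₂ hR₂
  omega

/-- **(NC), abstract form**: if `g` elements of `κ₁ × κ₂` (the reductions of a reduced basis of
the regular differentials of the generic fibre) are `k`-linearly independent and lie in a space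
`G` as in `finrank_nodal_le`, then `g ≤ g₁ + (|T₁| - 1) + g₂`. -/
theorem genus_le_of_reduction (hx₁ : IsFF k x₁) (hsep₁ : Algebra.IsSeparable k⟮x₁⟯ κ₁)
    (hx₂ : IsFF k x₂) (hsep₂ : Algebra.IsSeparable k⟮x₂⟯ κ₂) {g₁ g₂ : ℕ}
    (hR₁ : Fermat.Agent.S18.NonSpecial.RiemannHyp k κ₁ g₁)
    (hR₂ : Fermat.Agent.S18.NonSpecial.RiemannHyp k κ₂ g₂)
    (T₁ : Finset (Place k κ₁)) (hT₁ : ∀ a ∈ T₁, a.adicValuation x₁ ≤ 1)
    (G : Submodule k (κ₁ × κ₂))
    (h1 : ∀ p ∈ G, p.1 ∈ riemannRochSpace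
      (canDiv hx₁ hsep₁ + Fermat.Agent.S18.NonSpecial.sumPlaces T₁))
    (h2 : ∀ p ∈ G, p.1 = 0 → p.2 ∈ riemannRochSpace (canDiv hx₂ hsep₂))
    {ι : Type*} [Fintype ι] (r : ι → κ₁ × κ₂) (hr : LinearIndependent k r)
    (hrG : ∀ i, r i ∈ G) :
    Fintype.card ι ≤ g₁ + (T₁.card - 1) + g₂ := by
  obtain ⟨hfin, hle⟩ := finrank_nodal_le hx₁ hsep₁ hx₂ hsep₂ hR₁ hR₂ T₁ hT₁ G h1 h2
  refine le_trans ?_ hle
  have hspan : Submodule.span k (Set.range r) ≤ G :=
    Submodule.span_le.mpr (by rintro _ ⟨i, rfl⟩; exact hrG i)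
  have h3 : Module.finrank k (Submodule.span k (Set.range r)) = Fintype.card ι :=
    finrank_span_eq_card hr
  rw [← h3]
  exact Submodule.finrank_mono hspan

end Nodal

end Fermat.Agent.S34.Nodal.DualizingDim
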