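import Mathlib
import Fermat.Agent.S18.CoreOrd
import Fermat.Agent.S34.RegularQuotient

/-!
# PROJECT U (S34): the annulus structure axiom (ASA) from local statements and a global count
(helper27)

Setting: a function field `F / K` with two "Gauss" valuation rings `O₁, O₂` whose residue function
fields `κ₁, κ₂ / k` are the two components of a nodal special fibre; `ι` is the finite set of nodes,
`s₁ i`, `s₂ i` the two places of the node `i`, and `sp` sends a place of `F` to a non-node place of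
`κ₁`, a non-node place of `κ₂`, or a node.

For `f ≠ 0` put `N i f := ord_{s₁ i} (f̄₁) + ord_{s₂ i} (f̄₂)` (`f̄ⱼ` the reduction of `f` scaled to a
unit of `Oⱼ`) and `Z i f := ∑_{sp P = i} ord_P f`.

* `sum_N_eq_sum_Z` : **the global count** `∑ i, N i f = ∑ i, Z i f`, from the compatibility of `sp`
  with divisors of units on the smooth loci and the three "degree of a principal divisor is zero".
* `mono_of_regular`, `asa` : if locally at each node `N i g ≥ 0` for `g` regular at `i` (concavity),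
  linear factors `ℓ P` have `N = 1`, and regular zero-free `g` with `N i g = 0` are "monomial"
  (`M i g`), then for EVERY `h ≠ 0` the quotient of `h` by its linear factors over `i` is monomial.
  No zero has to be found: exactness comes from the global count.
* `exists_regular_quotient` : every `h ≠ 0` is a quotient of two functions without poles over the
  nodes (from Riemann's inequality and one place which is not over a node).
-/

set_option autoImplicit false
set_option linter.unusedSectionVars false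

noncomputable section

namespace Fermat.Agent.S34.Nodal.ASAOfLocal

open AlgebraicCurve Fermat.Agent.S18.CoreOrd Fermat.Agent.S24.Ord

/-! ### sums of finitely supported functions -/

section Sums

variable {α β : Type*}

/-- the total of a finitely supported function -/
def total (D : α →₀ ℤ) : ℤ := D.sum fun _ n => n

theorem total_mapDomain (r : α → β) (D : α →₀ ℤ) : total (Finsupp.mapDomain r D) = total D :=
  Finsupp.sum_mapDomain_index (fun _ => rfl) (fun _ _ _ => rfl)

theorem total_add (D E : α →₀ ℤ) : total (D + E) = total D + total E :=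
  Finsupp.sum_add_index' (fun _ => rfl) (fun _ _ _ => rfl)

theorem total_single (a : α) (n : ℤ) : total (Finsupp.single a n) = n :=
  Finsupp.sum_single_index rfl

theorem total_finset_sum {γ : Type*} (s : Finset γ) (D : γ → α →₀ ℤ) :
    total (∑ i ∈ s, D i) = ∑ i ∈ s, total (D i) := by
  classical
  induction s using Finset.induction_on with
  | empty => simp [total]
  | insert i t hi IH => rw [Finset.sum_insert hi, Finset.sum_insert hi, total_add, IH]

theorem total_fintype [Fintype α] (D : α →₀ ℤ) : total D = ∑ a, D a :=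
  Finsupp.sum_fintype D _ fun _ => rfl

/-- the left part of a finitely supported function on a sum type -/
def leftPart (T : α ⊕ β →₀ ℤ) : α →₀ ℤ := T.comapDomain Sum.inl Sum.inl_injective.injOn

/-- the right part of a finitely supported function on a sum type -/
def rightPart (T : α ⊕ β →₀ ℤ) : β →₀ ℤ := T.comapDomain Sum.inr Sum.inr_injective.injOn

@[simp]
theorem leftPart_apply (T : α ⊕ β →₀ ℤ) (a : α) : leftPart T a = T (Sum.inl a) := rfl

@[simp]
theorem rightPart_apply (T : α ⊕ β →₀ ℤ) (b : β) : rightPart T b = T (Sum.inr b) := rfl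

theorem total_sumType (T : α ⊕ β →₀ ℤ) : total T = total (leftPart T) + total (rightPart T) := by
  classical
  unfold total Finsupp.sum
  rw [Finset.sum_sum_eq_sum_toLeft_add_sum_toRight]
  congr 1
  · refine Finset.sum_congr ?_ fun _ _ => rfl
    ext a
    simp [Finset.mem_toLeft, Finsupp.mem_support_iff]
  · refine Finset.sum_congr ?_ fun _ _ => rfl
    ext b
    simp [Finset.mem_toRight, Finsupp.mem_support_iff]

end Sums

/-! ### the datum -/

variable {K : Type*} [Field K] {F : Type*} [Field F] [Algebra K F]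
variable {k : Type*} [Field k] {κ₁ κ₂ : Type*} [Field κ₁] [Algebra k κ₁] [Field κ₂] [Algebra k κ₂]
variable {ι : Type*}

variable (K F k κ₁ κ₂ ι) in
/-- Two Gauss valuation rings with reductions, the nodes, and the specialisation of places. -/
structure CountDatum where
  /-- the Gauss ring of the first component -/
  O₁ : ValuationSubring F
  /-- the Gauss ring of the second component -/
  O₂ : ValuationSubring F
  /-- reduction to the function field of the first component -/
  red₁ : O₁ →+* κ₁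
  /-- reduction to the function field of the second component -/
  red₂ : O₂ →+* κ₂
  const_mul_unit₁ : ∀ f : F, f ≠ 0 →
    ∃ c : K, c ≠ 0 ∧ ∃ u : O₁ˣ, f = algebraMap K F c * ((u : O₁) : F)
  const_mul_unit₂ : ∀ f : F, f ≠ 0 →
    ∃ c : K, c ≠ 0 ∧ ∃ u : O₂ˣ, f = algebraMap K F c * ((u : O₂) : F)
  /-- constants which are Gauss units reduce to constants -/
  red₁_const : ∀ (u : O₁ˣ) (c : K), ((u : O₁) : F) = algebraMap K F c →
    ∃ γ : k, red₁ u = algebraMap k κ₁ γ
  red₂_const : ∀ (u : O₂ˣ) (c : K), ((u : O₂) : F) = algebraMap K F c →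
    ∃ γ : k, red₂ u = algebraMap k κ₂ γ
  /-- the place of the node on the first component -/
  s₁ : ι → Place k κ₁
  /-- the place of the node on the second component -/
  s₂ : ι → Place k κ₂
  s₁_injective : Function.Injective s₁
  s₂_injective : Function.Injective s₂
  /-- the specialisation map -/
  sp : Place K F → Place k κ₁ ⊕ (Place k κ₂ ⊕ ι)
  sp_ne₁ : ∀ P i, sp P ≠ Sum.inl (s₁ i)
  sp_ne₂ : ∀ P i, sp P ≠ Sum.inr (Sum.inl (s₂ i))
  compat₁ : ∀ (u : O₁ˣ) (D : Divisor K F), (∀ P : Place K F, D P = P.ord ((u : O₁) : F)) →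
    ∀ Q : Place k κ₁, (∀ i, Q ≠ s₁ i) → Finsupp.mapDomain sp D (Sum.inl Q) = Q.ord (red₁ u)
  compat₂ : ∀ (u : O₂ˣ) (D : Divisor K F), (∀ P : Place K F, D P = P.ord ((u : O₂) : F)) →
    ∀ Q : Place k κ₂, (∀ i, Q ≠ s₂ i) →
      Finsupp.mapDomain sp D (Sum.inr (Sum.inl Q)) = Q.ord (red₂ u)

namespace CountDatum

variable (R : CountDatum K F k κ₁ κ₂ ι)

/-- `P` lies over the node `i` -/
def Over (P : Place K F) (i : ι) : Prop := R.sp P = Sum.inr (Sum.inr i)

theorem red₁_unit_ne_zero (u : R.O₁ˣ) : R.red₁ u ≠ 0 :=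
  (u.isUnit.map R.red₁).ne_zero

theorem red₂_unit_ne_zero (u : R.O₂ˣ) : R.red₂ u ≠ 0 :=
  (u.isUnit.map R.red₂).ne_zero

theorem coe_unit_ne_zero₁ (u : R.O₁ˣ) : ((u : R.O₁) : F) ≠ 0 := by
  intro h
  have : (u : R.O₁) = 0 := Subtype.ext h
  exact u.ne_zero this

theorem coe_unit_ne_zero₂ (u : R.O₂ˣ) : ((u : R.O₂) : F) ≠ 0 := by
  intro h
  have : (u : R.O₂) = 0 := Subtype.ext h
  exact u.ne_zero this

/-- two scalings of the same function have reductions with the same orders (first component) -/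
theorem ord_red₁_eq {c c' : K} (hc : c ≠ 0) {u u' : R.O₁ˣ}
    (h : algebraMap K F c * ((u : R.O₁) : F) = algebraMap K F c' * ((u' : R.O₁) : F))
    (Q : Place k κ₁) : Q.ord (R.red₁ u) = Q.ord (R.red₁ u') := by
  have hcF : algebraMap K F c ≠ 0 := (map_ne_zero _).mpr hc
  have e1 : (((u * u'⁻¹ : R.O₁ˣ) : R.O₁) : F) = algebraMap K F (c' / c) := by
    have h2 : ((u : R.O₁) : F) = algebraMap K F (c' / c) * ((u' : R.O₁) : F) := by
      rw [map_div₀, div_mul_eq_mul_div, eq_div_iff hcF, mul_comm]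
      exact h
    have h3 : (((u'⁻¹ : R.O₁ˣ) : R.O₁) : F) * ((u' : R.O₁) : F) = 1 := by
      rw [← MulMemClass.coe_mul, Units.inv_mul]
      rfl
    rw [Units.val_mul, MulMemClass.coe_mul, h2, mul_assoc, mul_comm ((u' : R.O₁) : F), h3, mul_one]
  obtain ⟨γ, hγ⟩ := R.red₁_const (u * u'⁻¹) (c' / c) e1
  have hγ0 : γ ≠ 0 := by
    rintro rfl
    rw [map_zero] at hγ
    exact R.red₁_unit_ne_zero _ hγ
  have e2 : R.red₁ u = algebraMap k κ₁ γ * R.red₁ u' := by
    rw [← hγ, ← map_mul]
    congr 1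
    rw [Units.val_mul, mul_assoc, Units.inv_mul, mul_one]
  rw [e2, ord_const_mul Q hγ0]

theorem ord_red₂_eq {c c' : K} (hc : c ≠ 0) {u u' : R.O₂ˣ}
    (h : algebraMap K F c * ((u : R.O₂) : F) = algebraMap K F c' * ((u' : R.O₂) : F))
    (Q : Place k κ₂) : Q.ord (R.red₂ u) = Q.ord (R.red₂ u') := by
  have hcF : algebraMap K F c ≠ 0 := (map_ne_zero _).mpr hc
  have e1 : (((u * u'⁻¹ : R.O₂ˣ) : R.O₂) : F) = algebraMap K F (c' / c) := by
    have h2 : ((u : R.O₂) : F) = algebraMap K F (c' / c) * ((u' : R.O₂) : F) := by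
      rw [map_div₀, div_mul_eq_mul_div, eq_div_iff hcF, mul_comm]
      exact h
    have h3 : (((u'⁻¹ : R.O₂ˣ) : R.O₂) : F) * ((u' : R.O₂) : F) = 1 := by
      rw [← MulMemClass.coe_mul, Units.inv_mul]
      rfl
    rw [Units.val_mul, MulMemClass.coe_mul, h2, mul_assoc, mul_comm ((u' : R.O₂) : F), h3, mul_one]
  obtain ⟨γ, hγ⟩ := R.red₂_const (u * u'⁻¹) (c' / c) e1
  have hγ0 : γ ≠ 0 := by
    rintro rfl
    rw [map_zero] at hγ
    exact R.red₂_unit_ne_zero _ hγ
  have e2 : R.red₂ u = algebraMap k κ₂ γ * R.red₂ u' := by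
    rw [← hγ, ← map_mul]
    congr 1
    rw [Units.val_mul, mul_assoc, Units.inv_mul, mul_one]
  rw [e2, ord_const_mul Q hγ0]

open Classical in
/-- the order at `Q` of the reduction of `f` on the first component (`0` for `f = 0`) -/
def ordRed₁ (f : F) (Q : Place k κ₁) : ℤ :=
  if h : ∃ (c : K) (u : R.O₁ˣ), c ≠ 0 ∧ f = algebraMap K F c * ((u : R.O₁) : F) then
    Q.ord (R.red₁ h.choose_spec.choose) else 0

open Classical in
/-- the order at `Q` of the reduction of `f` on the second component (`0` for `f = 0`) -/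
def ordRed₂ (f : F) (Q : Place k κ₂) : ℤ :=
  if h : ∃ (c : K) (u : R.O₂ˣ), c ≠ 0 ∧ f = algebraMap K F c * ((u : R.O₂) : F) then
    Q.ord (R.red₂ h.choose_spec.choose) else 0

theorem ordRed₁_eq {f : F} {c : K} (hc : c ≠ 0) (u : R.O₁ˣ)
    (h : f = algebraMap K F c * ((u : R.O₁) : F)) (Q : Place k κ₁) :
    R.ordRed₁ f Q = Q.ord (R.red₁ u) := by
  have hex : ∃ (c : K) (u : R.O₁ˣ), c ≠ 0 ∧ f = algebraMap K F c * ((u : R.O₁) : F) :=
    ⟨c, u, hc, h⟩
  unfold ordRed₁
  rw [dif_pos hex]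
  exact R.ord_red₁_eq hex.choose_spec.choose_spec.1
    (hex.choose_spec.choose_spec.2.symm.trans h) Q

theorem ordRed₂_eq {f : F} {c : K} (hc : c ≠ 0) (u : R.O₂ˣ)
    (h : f = algebraMap K F c * ((u : R.O₂) : F)) (Q : Place k κ₂) :
    R.ordRed₂ f Q = Q.ord (R.red₂ u) := by
  have hex : ∃ (c : K) (u : R.O₂ˣ), c ≠ 0 ∧ f = algebraMap K F c * ((u : R.O₂) : F) :=
    ⟨c, u, hc, h⟩
  unfold ordRed₂
  rw [dif_pos hex]
  exact R.ord_red₂_eq hex.choose_spec.choose_spec.1
    (hex.choose_spec.choose_spec.2.symm.trans h) Q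

theorem ordRed₁_mul {f g : F} (hf : f ≠ 0) (hg : g ≠ 0) (Q : Place k κ₁) :
    R.ordRed₁ (f * g) Q = R.ordRed₁ f Q + R.ordRed₁ g Q := by
  obtain ⟨c, hc, u, hfu⟩ := R.const_mul_unit₁ f hf
  obtain ⟨c', hc', u', hgu⟩ := R.const_mul_unit₁ g hg
  have h : f * g = algebraMap K F (c * c') * (((u * u' : R.O₁ˣ) : R.O₁) : F) := by
    rw [hfu, hgu, map_mul, Units.val_mul, MulMemClass.coe_mul]
    ring
  rw [R.ordRed₁_eq (mul_ne_zero hc hc') (u * u') h, R.ordRed₁_eq hc u hfu, R.ordRed₁_eq hc' u' hgu,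
    Units.val_mul, map_mul, Q.ord_mul (R.red₁_unit_ne_zero u) (R.red₁_unit_ne_zero u')]

theorem ordRed₂_mul {f g : F} (hf : f ≠ 0) (hg : g ≠ 0) (Q : Place k κ₂) :
    R.ordRed₂ (f * g) Q = R.ordRed₂ f Q + R.ordRed₂ g Q := by
  obtain ⟨c, hc, u, hfu⟩ := R.const_mul_unit₂ f hf
  obtain ⟨c', hc', u', hgu⟩ := R.const_mul_unit₂ g hg
  have h : f * g = algebraMap K F (c * c') * (((u * u' : R.O₂ˣ) : R.O₂) : F) := by
    rw [hfu, hgu, map_mul, Units.val_mul, MulMemClass.coe_mul]
    ring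
  rw [R.ordRed₂_eq (mul_ne_zero hc hc') (u * u') h, R.ordRed₂_eq hc u hfu, R.ordRed₂_eq hc' u' hgu,
    Units.val_mul, map_mul, Q.ord_mul (R.red₂_unit_ne_zero u) (R.red₂_unit_ne_zero u')]

/-- **the node index**: `N i f = ord_{s₁ i} f̄₁ + ord_{s₂ i} f̄₂` -/
def N (i : ι) (f : F) : ℤ := R.ordRed₁ f (R.s₁ i) + R.ordRed₂ f (R.s₂ i)

theorem N_mul (i : ι) {f g : F} (hf : f ≠ 0) (hg : g ≠ 0) :
    R.N i (f * g) = R.N i f + R.N i g := by
  unfold N
  rw [R.ordRed₁_mul hf hg, R.ordRed₂_mul hf hg]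
  ring

theorem N_one (i : ι) : R.N i (1 : F) = 0 := by
  have h := R.N_mul i (one_ne_zero (α := F)) one_ne_zero
  rw [mul_one] at h
  linarith

theorem N_inv (i : ι) {f : F} (hf : f ≠ 0) : R.N i f⁻¹ = -R.N i f := by
  have h := R.N_mul i hf (inv_ne_zero hf)
  rw [mul_inv_cancel₀ hf, N_one] at h
  linarith

theorem N_zpow (i : ι) {f : F} (hf : f ≠ 0) (n : ℤ) : R.N i (f ^ n) = n * R.N i f := by
  induction n using Int.induction_on with
  | zero => simp [N_one]
  | succ n IH =>
    rw [zpow_add_one₀ hf, R.N_mul i (zpow_ne_zero _ hf) hf, IH]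
    ring
  | pred n IH =>
    rw [zpow_sub_one₀ hf, R.N_mul i (zpow_ne_zero _ hf) (inv_ne_zero hf), IH, R.N_inv i hf]
    ring

theorem N_prod (i : ι) {α : Type*} (s : Finset α) (g : α → F) (hg : ∀ a ∈ s, g a ≠ 0) :
    R.N i (∏ a ∈ s, g a) = ∑ a ∈ s, R.N i (g a) := by
  classical
  induction s using Finset.induction_on with
  | empty => simp [N_one]
  | insert a t ha IH =>
    rw [Finset.prod_insert ha, Finset.sum_insert ha,
      R.N_mul i (hg a (Finset.mem_insert_self a t))
        (Finset.prod_ne_zero_iff.mpr fun b hb => hg b (Finset.mem_insert_of_mem hb)),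
      IH fun b hb => hg b (Finset.mem_insert_of_mem hb)]

/-- **the number of zeros over the node `i`**, for a divisor `D` -/
def Z (D : Divisor K F) (i : ι) : ℤ := Finsupp.mapDomain R.sp D (Sum.inr (Sum.inr i))

/-! ### the global count -/

section Count

variable [Fintype ι]

/-- the first component: the places of `κ₁` which are not nodes carry the reduction divisor -/
theorem total_leftPart {f : F} {c : K} (hc : c ≠ 0) (u : R.O₁ˣ)
    (hfu : f = algebraMap K F c * ((u : R.O₁) : F)) (D : Divisor K F)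
    (hD : ∀ P : Place K F, D P = P.ord f) (E : Divisor k κ₁)
    (hE : ∀ Q : Place k κ₁, E Q = Q.ord (R.red₁ u)) :
    total (leftPart (Finsupp.mapDomain R.sp D)) = total E - ∑ i, E (R.s₁ i) := by
  classical
  have hDu : ∀ P : Place K F, D P = P.ord ((u : R.O₁) : F) := fun P => by
    rw [hD, hfu, ord_const_mul P hc]
  have key : leftPart (Finsupp.mapDomain R.sp D) =
      E - ∑ i, Finsupp.single (R.s₁ i) (E (R.s₁ i)) := by
    ext Q
    rw [leftPart_apply, Finsupp.sub_apply, Finsupp.finsetSum_apply]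
    by_cases hQ : ∃ i, Q = R.s₁ i
    · obtain ⟨i, rfl⟩ := hQ
      rw [mapDomain_eq_zero_of_forall _ _ _ (fun P hP => absurd hP (R.sp_ne₁ P i)),
        Finset.sum_eq_single i]
      · rw [Finsupp.single_eq_same, sub_self]
      · intro j _ hji
        exact Finsupp.single_eq_of_ne (fun h => hji (R.s₁_injective h).symm)
      · intro h
        exact absurd (Finset.mem_univ i) h
    · push Not at hQ
      rw [R.compat₁ u D hDu Q hQ, hE, Finset.sum_eq_zero, sub_zero]
      intro j _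
      exact Finsupp.single_eq_of_ne (fun h => hQ j h)
  rw [key, sub_eq_add_neg, total_add]
  have : total (-∑ i, Finsupp.single (R.s₁ i) (E (R.s₁ i))) = -∑ i, E (R.s₁ i) := by
    rw [← Finset.sum_neg_distrib, total_finset_sum, ← Finset.sum_neg_distrib]
    refine Finset.sum_congr rfl fun i _ => ?_
    rw [← Finsupp.single_neg, total_single]
  rw [this]
  ring

theorem total_middlePart {f : F} {c : K} (hc : c ≠ 0) (u : R.O₂ˣ)
    (hfu : f = algebraMap K F c * ((u : R.O₂) : F)) (D : Divisor K F)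
    (hD : ∀ P : Place K F, D P = P.ord f) (E : Divisor k κ₂)
    (hE : ∀ Q : Place k κ₂, E Q = Q.ord (R.red₂ u)) :
    total (leftPart (rightPart (Finsupp.mapDomain R.sp D))) = total E - ∑ i, E (R.s₂ i) := by
  classical
  have hDu : ∀ P : Place K F, D P = P.ord ((u : R.O₂) : F) := fun P => by
    rw [hD, hfu, ord_const_mul P hc]
  have key : leftPart (rightPart (Finsupp.mapDomain R.sp D)) =
      E - ∑ i, Finsupp.single (R.s₂ i) (E (R.s₂ i)) := by
    ext Q
    rw [leftPart_apply, rightPart_apply, Finsupp.sub_apply, Finsupp.finsetSum_apply]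
    by_cases hQ : ∃ i, Q = R.s₂ i
    · obtain ⟨i, rfl⟩ := hQ
      rw [mapDomain_eq_zero_of_forall _ _ _ (fun P hP => absurd hP (R.sp_ne₂ P i)),
        Finset.sum_eq_single i]
      · rw [Finsupp.single_eq_same, sub_self]
      · intro j _ hji
        exact Finsupp.single_eq_of_ne (fun h => hji (R.s₂_injective h).symm)
      · intro h
        exact absurd (Finset.mem_univ i) h
    · push Not at hQ
      rw [R.compat₂ u D hDu Q hQ, hE, Finset.sum_eq_zero, sub_zero]
      intro j _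
      exact Finsupp.single_eq_of_ne (fun h => hQ j h)
  rw [key, sub_eq_add_neg, total_add]
  have : total (-∑ i, Finsupp.single (R.s₂ i) (E (R.s₂ i))) = -∑ i, E (R.s₂ i) := by
    rw [← Finset.sum_neg_distrib, total_finset_sum, ← Finset.sum_neg_distrib]
    refine Finset.sum_congr rfl fun i _ => ?_
    rw [← Finsupp.single_neg, total_single]
  rw [this]
  ring

/-- **The global count**: the sum of the node indices is the number of zeros over the nodes. -/
theorem sum_N_eq_sum_Z {f : F} (hf : f ≠ 0) (D : Divisor K F)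
    (hD : ∀ P : Place K F, D P = P.ord f) (hD0 : total D = 0)
    (h₁ : ∀ g : κ₁, g ≠ 0 → ∃ E : Divisor k κ₁, (∀ Q, E Q = Q.ord g) ∧ total E = 0)
    (h₂ : ∀ g : κ₂, g ≠ 0 → ∃ E : Divisor k κ₂, (∀ Q, E Q = Q.ord g) ∧ total E = 0) :
    ∑ i, R.N i f = ∑ i, R.Z D i := by
  classical
  obtain ⟨c₁, hc₁, u₁, hf₁⟩ := R.const_mul_unit₁ f hf
  obtain ⟨c₂, hc₂, u₂, hf₂⟩ := R.const_mul_unit₂ f hf
  obtain ⟨E₁, hE₁, hE₁0⟩ := h₁ _ (R.red₁_unit_ne_zero u₁)
  obtain ⟨E₂, hE₂, hE₂0⟩ := h₂ _ (R.red₂_unit_ne_zero u₂)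
  have e0 := total_mapDomain R.sp D
  rw [hD0, total_sumType, total_sumType (rightPart _),
    R.total_leftPart hc₁ u₁ hf₁ D hD E₁ hE₁, R.total_middlePart hc₂ u₂ hf₂ D hD E₂ hE₂,
    hE₁0, hE₂0, total_fintype] at e0
  have e1 : ∑ i, R.N i f = ∑ i, E₁ (R.s₁ i) + ∑ i, E₂ (R.s₂ i) := by
    rw [← Finset.sum_add_distrib]
    refine Finset.sum_congr rfl fun i _ => ?_
    unfold N
    rw [R.ordRed₁_eq hc₁ u₁ hf₁, R.ordRed₂_eq hc₂ u₂ hf₂, hE₁, hE₂]
  have e2 : ∑ i, R.Z D i = ∑ i, rightPart (rightPart (Finsupp.mapDomain R.sp D)) i := rfl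
  rw [e1, e2]
  linarith

end Count


/-! ### from the local statements at the nodes to the annulus structure -/

theorem ord_finset_prod (P : Place K F) {α : Type*} (s : Finset α) (g : α → F)
    (hg : ∀ a ∈ s, g a ≠ 0) : P.ord (∏ a ∈ s, g a) = ∑ a ∈ s, P.ord (g a) := by
  classical
  induction s using Finset.induction_on with
  | empty => simp [Place.ord_one]
  | insert a t ha IH =>
    rw [Finset.prod_insert ha, Finset.sum_insert ha,
      P.ord_mul (hg a (Finset.mem_insert_self a t))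
        (Finset.prod_ne_zero_iff.mpr fun b hb => hg b (Finset.mem_insert_of_mem hb)),
      IH fun b hb => hg b (Finset.mem_insert_of_mem hb)]

/-- **The local statements at the nodes.**  In the chart `W[[ξ, η]] / (ξ η - c_i)` of the node `i`:
`Reg i g` says that `g` is a constant times an element of the local ring, `ℓ P = ξ - ξ(P)` is the
linear factor of a point `P` of the open annulus, and `M i g` says that `g` is a constant times a
power of `ξ` times a one-unit.  The fields are: regular functions have no poles in the annulus;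
(R3) the linear factors and the division by them; (R1) concavity; (R2) the unit criterion. -/
structure LocalHyp where
  /-- `g` is (a constant times) an element of the local ring at the node `i` -/
  Reg : ι → F → Prop
  /-- the linear factor `ξ_i - ξ_i(P)` of a place over the node `i` -/
  ℓ : Place K F → F
  /-- `g` is a constant times a power of `ξ_i` times a one-unit at the node `i` -/
  M : ι → F → Prop
  ord_nonneg : ∀ i g, Reg i g → ∀ P, R.Over P i → 0 ≤ P.ord g
  ℓ_ne_zero : ∀ i P, R.Over P i → ℓ P ≠ 0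
  ord_ℓ_self : ∀ i P, R.Over P i → P.ord (ℓ P) = 1
  ord_ℓ_other : ∀ i P P', R.Over P i → R.Over P' i → P' ≠ P → P'.ord (ℓ P) = 0
  N_ℓ : ∀ i P, R.Over P i → R.N i (ℓ P) = 1
  reg_div : ∀ i g P, g ≠ 0 → Reg i g → R.Over P i → 0 < P.ord g → Reg i (g / ℓ P)
  N_nonneg : ∀ i g, g ≠ 0 → Reg i g → 0 ≤ R.N i g
  M_of_N_eq_zero : ∀ i g, g ≠ 0 → Reg i g → R.N i g = 0 → M i g
  M_div : ∀ i g h, M i g → M i h → M i (g / h)

namespace LocalHyp

variable {R} (H : R.LocalHyp)

theorem reg_div_pow (i : ι) {g : F} (hg : g ≠ 0) (hreg : H.Reg i g) {P : Place K F}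
    (hP : R.Over P i) (n : ℕ) (hn : (n : ℤ) ≤ P.ord g) : H.Reg i (g / H.ℓ P ^ n) := by
  induction n with
  | zero => simpa using hreg
  | succ n IH =>
    have hℓ := H.ℓ_ne_zero i P hP
    have hn' : (n : ℤ) + 1 ≤ P.ord g := by exact_mod_cast hn
    have h1 : H.Reg i (g / H.ℓ P ^ n) := IH (by omega)
    have h2 : g / H.ℓ P ^ n ≠ 0 := div_ne_zero hg (pow_ne_zero _ hℓ)
    have h3 : P.ord (g / H.ℓ P ^ n) = P.ord g - n := by
      rw [ord_div P hg (pow_ne_zero _ hℓ), ord_pow, H.ord_ℓ_self i P hP, mul_one]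
    have h4 := H.reg_div i _ P h2 h1 hP (by rw [h3]; omega)
    rwa [div_div, ← pow_succ] at h4

theorem reg_div_prod (i : ι) {g : F} (hg : g ≠ 0) (hreg : H.Reg i g) (s : Finset (Place K F))
    (hs : ∀ P ∈ s, R.Over P i) (m : Place K F → ℕ) (hm : ∀ P ∈ s, (m P : ℤ) ≤ P.ord g) :
    H.Reg i (g / ∏ P ∈ s, H.ℓ P ^ m P) := by
  classical
  induction s using Finset.induction_on with
  | empty => simpa using hreg
  | insert P t hPt IH =>
    have hPi := hs P (Finset.mem_insert_self P t)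
    have ht : ∀ P' ∈ t, R.Over P' i := fun P' h => hs P' (Finset.mem_insert_of_mem h)
    have hne : ∀ P' ∈ t, H.ℓ P' ^ m P' ≠ 0 := fun P' h =>
      pow_ne_zero _ (H.ℓ_ne_zero i P' (ht P' h))
    have hprod : ∏ P' ∈ t, H.ℓ P' ^ m P' ≠ 0 := Finset.prod_ne_zero_iff.mpr hne
    have h1 := IH ht fun P' h => hm P' (Finset.mem_insert_of_mem h)
    have h2 : g / ∏ P' ∈ t, H.ℓ P' ^ m P' ≠ 0 := div_ne_zero hg hprod
    have h3 : P.ord (g / ∏ P' ∈ t, H.ℓ P' ^ m P') = P.ord g := by
      rw [ord_div P hg hprod, ord_finset_prod P t _ hne, Finset.sum_eq_zero, sub_zero]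
      intro P' h
      have hPP' : P ≠ P' := by
        rintro rfl
        exact hPt h
      rw [ord_pow, H.ord_ℓ_other i P' P (ht P' h) hPi hPP', mul_zero]
    have h4 := H.reg_div_pow i h2 h1 hPi (m P)
      (by rw [h3]; exact hm P (Finset.mem_insert_self P t))
    rw [Finset.prod_insert hPt, mul_comm, ← div_div]
    exact h4

open Classical in
/-- the product of the linear factors of the divisor `D` over the node `i` -/
def zeroProd (i : ι) (D : Divisor K F) : F :=
  ∏ P ∈ D.support.filter (fun P => R.Over P i), H.ℓ P ^ (D P)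

open Classical in
theorem zeroProd_eq_prod (i : ι) (D : Divisor K F) (s : Finset (Place K F))
    (hs : D.support ⊆ s) :
    H.zeroProd i D = ∏ P ∈ s.filter (fun P => R.Over P i), H.ℓ P ^ (D P) := by
  unfold zeroProd
  refine Finset.prod_subset (Finset.filter_subset_filter _ hs) fun P hP hP' => ?_
  rw [Finset.mem_filter] at hP hP'
  have : D P = 0 := by
    by_contra h0
    exact hP' ⟨Finsupp.mem_support_iff.mpr h0, hP.2⟩
  rw [this, zpow_zero]

theorem zeroProd_ne_zero (i : ι) (D : Divisor K F) : H.zeroProd i D ≠ 0 := by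
  classical
  unfold zeroProd
  exact Finset.prod_ne_zero_iff.mpr fun P hP =>
    zpow_ne_zero _ (H.ℓ_ne_zero i P (Finset.mem_filter.mp hP).2)

theorem ord_zeroProd (i : ι) (D : Divisor K F) {P : Place K F} (hP : R.Over P i) :
    P.ord (H.zeroProd i D) = D P := by
  classical
  unfold zeroProd
  rw [ord_finset_prod P _ _ fun P' hP' =>
    zpow_ne_zero _ (H.ℓ_ne_zero i P' (Finset.mem_filter.mp hP').2)]
  by_cases hmem : P ∈ D.support
  · rw [Finset.sum_eq_single P]
    · rw [Place.ord_zpow, H.ord_ℓ_self i P hP, mul_one]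
    · intro P' hP' hne
      rw [Place.ord_zpow, H.ord_ℓ_other i P' P (Finset.mem_filter.mp hP').2 hP (Ne.symm hne),
        mul_zero]
    · intro h
      exact absurd (Finset.mem_filter.mpr ⟨hmem, hP⟩) h
  · rw [Finsupp.notMem_support_iff.mp hmem]
    refine Finset.sum_eq_zero fun P' hP' => ?_
    have hne : P ≠ P' := by
      rintro rfl
      exact hmem (Finset.mem_filter.mp hP').1
    rw [Place.ord_zpow, H.ord_ℓ_other i P' P (Finset.mem_filter.mp hP').2 hP hne, mul_zero]

theorem N_zeroProd (i : ι) (D : Divisor K F) : R.N i (H.zeroProd i D) = R.Z D i := by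
  classical
  unfold zeroProd CountDatum.Z
  rw [mapDomain_apply_eq_sum, R.N_prod i _ _ fun P hP =>
    zpow_ne_zero _ (H.ℓ_ne_zero i P (Finset.mem_filter.mp hP).2)]
  refine Finset.sum_congr ?_ fun P hP => ?_
  · ext P
    simp only [Finset.mem_filter, CountDatum.Over]
  · have hP' : R.Over P i := (Finset.mem_filter.mp hP).2
    rw [R.N_zpow i (H.ℓ_ne_zero i P hP'), H.N_ℓ i P hP', mul_one]

/-- the quotient of a regular function by its linear factors is regular -/
theorem reg_div_zeroProd (i : ι) {g : F} (hg : g ≠ 0) (hreg : H.Reg i g) (D : Divisor K F)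
    (hD : ∀ P : Place K F, D P = P.ord g) : H.Reg i (g / H.zeroProd i D) := by
  classical
  have h := H.reg_div_prod i hg hreg (D.support.filter fun P => R.Over P i)
    (fun P hP => (Finset.mem_filter.mp hP).2) (fun P => (D P).toNat) (fun P hP => by
      have := H.ord_nonneg i g hreg P (Finset.mem_filter.mp hP).2
      rw [← hD, Int.toNat_of_nonneg (by rw [hD]; exact this)])
  have e : H.zeroProd i D = ∏ P ∈ D.support.filter (fun P => R.Over P i),
      H.ℓ P ^ (D P).toNat := by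
    unfold zeroProd
    refine Finset.prod_congr rfl fun P hP => ?_
    have h0 : 0 ≤ D P := by
      rw [hD]
      exact H.ord_nonneg i g hreg P (Finset.mem_filter.mp hP).2
    conv_lhs => rw [← Int.toNat_of_nonneg h0]
    rw [zpow_natCast]
  rw [e]
  exact h

/-- **the node index is at least the number of zeros in the annulus**, for regular functions -/
theorem Z_le_N (i : ι) {g : F} (hg : g ≠ 0) (hreg : H.Reg i g) (D : Divisor K F)
    (hD : ∀ P : Place K F, D P = P.ord g) : R.Z D i ≤ R.N i g := by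
  have h1 := H.reg_div_zeroProd i hg hreg D hD
  have h2 : g / H.zeroProd i D ≠ 0 := div_ne_zero hg (H.zeroProd_ne_zero i D)
  have h3 := H.N_nonneg i _ h2 h1
  have h4 : R.N i g = R.N i (g / H.zeroProd i D) + R.N i (H.zeroProd i D) := by
    rw [← R.N_mul i h2 (H.zeroProd_ne_zero i D), div_mul_cancel₀ _ (H.zeroProd_ne_zero i D)]
  rw [h4, H.N_zeroProd]
  omega

section Global

variable [Fintype ι]

/-- **equality at every node**, for functions regular at all nodes: the global count leaves no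
room. -/
theorem N_eq_Z {g : F} (hg : g ≠ 0) (hreg : ∀ i, H.Reg i g) (D : Divisor K F)
    (hD : ∀ P : Place K F, D P = P.ord g) (hD0 : total D = 0)
    (h₁ : ∀ g : κ₁, g ≠ 0 → ∃ E : Divisor k κ₁, (∀ Q, E Q = Q.ord g) ∧ total E = 0)
    (h₂ : ∀ g : κ₂, g ≠ 0 → ∃ E : Divisor k κ₂, (∀ Q, E Q = Q.ord g) ∧ total E = 0) (i : ι) :
    R.N i g = R.Z D i := by
  have hsum := R.sum_N_eq_sum_Z hg D hD hD0 h₁ h₂
  have h0 : ∑ j, (R.N j g - R.Z D j) = 0 := by
    rw [Finset.sum_sub_distrib, hsum, sub_self]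
  have h1 := (Finset.sum_eq_zero_iff_of_nonneg fun j _ =>
    sub_nonneg.mpr (H.Z_le_N j hg (hreg j) D hD)).mp h0 i (Finset.mem_univ i)
  omega

/-- **(ASA) for functions regular at all nodes** -/
theorem asa_of_reg {g : F} (hg : g ≠ 0) (hreg : ∀ i, H.Reg i g) (D : Divisor K F)
    (hD : ∀ P : Place K F, D P = P.ord g) (hD0 : total D = 0)
    (h₁ : ∀ g : κ₁, g ≠ 0 → ∃ E : Divisor k κ₁, (∀ Q, E Q = Q.ord g) ∧ total E = 0)
    (h₂ : ∀ g : κ₂, g ≠ 0 → ∃ E : Divisor k κ₂, (∀ Q, E Q = Q.ord g) ∧ total E = 0) (i : ι) :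
    H.M i (g / H.zeroProd i D) := by
  have h1 := H.reg_div_zeroProd i hg (hreg i) D hD
  have h2 : g / H.zeroProd i D ≠ 0 := div_ne_zero hg (H.zeroProd_ne_zero i D)
  refine H.M_of_N_eq_zero i _ h2 h1 ?_
  have h4 : R.N i g = R.N i (g / H.zeroProd i D) + R.N i (H.zeroProd i D) := by
    rw [← R.N_mul i h2 (H.zeroProd_ne_zero i D), div_mul_cancel₀ _ (H.zeroProd_ne_zero i D)]
  rw [H.N_zeroProd, H.N_eq_Z hg hreg D hD hD0 h₁ h₂ i] at h4
  omega

theorem zeroProd_sub (i : ι) (D₁ D₂ : Divisor K F) :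
    H.zeroProd i (D₁ - D₂) = H.zeroProd i D₁ / H.zeroProd i D₂ := by
  classical
  have hs : (D₁ - D₂).support ⊆ D₁.support ∪ D₂.support := by
    intro P hP
    rw [Finsupp.mem_support_iff, Finsupp.sub_apply] at hP
    rw [Finset.mem_union, Finsupp.mem_support_iff, Finsupp.mem_support_iff]
    by_contra hcon
    push Not at hcon
    rw [hcon.1, hcon.2, sub_zero] at hP
    exact hP rfl
  rw [H.zeroProd_eq_prod i _ _ hs, H.zeroProd_eq_prod i D₁ _ Finset.subset_union_left,
    H.zeroProd_eq_prod i D₂ _ Finset.subset_union_right, ← Finset.prod_div_distrib]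
  refine Finset.prod_congr rfl fun P hP => ?_
  rw [Finsupp.sub_apply, zpow_sub₀ (H.ℓ_ne_zero i P (Finset.mem_filter.mp hP).2)]

/-- **(ASA)**: for every `h ≠ 0` and every node `i`, the quotient of `h` by the linear factors of
its zeros and poles over `i` is a constant times a power of `ξ_i` times a one-unit.  `hquot` (every
function is a quotient of two functions regular at all nodes) comes from Riemann's inequality, see
`exists_regular_quotient`. -/
theorem asa
    (hF : ∀ f : F, f ≠ 0 → ∃ D : Divisor K F, (∀ P, D P = P.ord f) ∧ total D = 0)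
    (h₁ : ∀ g : κ₁, g ≠ 0 → ∃ E : Divisor k κ₁, (∀ Q, E Q = Q.ord g) ∧ total E = 0)
    (h₂ : ∀ g : κ₂, g ≠ 0 → ∃ E : Divisor k κ₂, (∀ Q, E Q = Q.ord g) ∧ total E = 0)
    (hquot : ∀ h : F, h ≠ 0 → ∃ g₁ g₂ : F, g₁ ≠ 0 ∧ g₂ ≠ 0 ∧ g₁ = g₂ * h ∧
      (∀ i, H.Reg i g₁) ∧ ∀ i, H.Reg i g₂)
    {h : F} (hh : h ≠ 0) (D : Divisor K F) (hD : ∀ P : Place K F, D P = P.ord h) (i : ι) :
    H.M i (h / H.zeroProd i D) ∧ R.N i h = R.Z D i := by
  obtain ⟨g₁, g₂, hg₁, hg₂, hgh, hreg₁, hreg₂⟩ := hquot h hh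
  obtain ⟨D₁, hD₁, hD₁0⟩ := hF g₁ hg₁
  obtain ⟨D₂, hD₂, hD₂0⟩ := hF g₂ hg₂
  have hh' : h = g₁ / g₂ := by
    rw [hgh, mul_div_cancel_left₀ _ hg₂]
  have hDD : D = D₁ - D₂ := by
    ext P
    rw [Finsupp.sub_apply, hD, hD₁, hD₂, hh', ord_div P hg₁ hg₂]
  have m₁ := H.asa_of_reg hg₁ hreg₁ D₁ hD₁ hD₁0 h₁ h₂ i
  have m₂ := H.asa_of_reg hg₂ hreg₂ D₂ hD₂ hD₂0 h₁ h₂ i
  constructor
  · have := H.M_div i _ _ m₁ m₂
    have e : g₁ / H.zeroProd i D₁ / (g₂ / H.zeroProd i D₂) = h / H.zeroProd i D := by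
      rw [hDD, H.zeroProd_sub, hh']
      have := H.zeroProd_ne_zero i D₁
      have := H.zeroProd_ne_zero i D₂
      field_simp
    rwa [e] at this
  · have n₁ := H.N_eq_Z hg₁ hreg₁ D₁ hD₁ hD₁0 h₁ h₂ i
    have n₂ := H.N_eq_Z hg₂ hreg₂ D₂ hD₂ hD₂0 h₁ h₂ i
    have e1 : R.N i h = R.N i g₁ - R.N i g₂ := by
      rw [hh', div_eq_mul_inv, R.N_mul i hg₁ (inv_ne_zero hg₂), R.N_inv i hg₂]
      ring
    have e2 : R.Z D i = R.Z D₁ i - R.Z D₂ i := by
      unfold CountDatum.Z
      rw [hDD, Finsupp.mapDomain_sub, Finsupp.sub_apply]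
    rw [e1, e2, n₁, n₂]

end Global

end LocalHyp

/-! ### the degree hypotheses from `HasPrincipalDivisors` -/

theorem total_eq_degree (hdeg : ∀ P : Place K F, P.deg = 1) (D : Divisor K F) :
    total D = Divisor.degree D := by
  unfold total Divisor.degree
  rw [Finsupp.liftAddHom_apply]
  refine Finsupp.sum_congr fun P _ => ?_
  rw [AddMonoidHom.mulRight_apply, hdeg P]
  simp

theorem exists_divisor_total [HasPrincipalDivisors K F] (hdeg : ∀ P : Place K F, P.deg = 1)
    (f : F) (hf : f ≠ 0) : ∃ D : Divisor K F, (∀ P, D P = P.ord f) ∧ total D = 0 := by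
  obtain ⟨D, hD, hD0⟩ := HasPrincipalDivisors.exists_divisor (K := K) f hf
  exact ⟨D, hD, by rw [total_eq_degree hdeg, hD0]⟩

/-- **(ASA) from Riemann's inequality**: if every function regular off one place `Q₀` (say a cusp)
is regular at all nodes, then (ASA) holds for every `h ≠ 0`. -/
theorem LocalHyp.asa_of_riemann [Fintype ι] {R : CountDatum K F k κ₁ κ₂ ι} (H : R.LocalHyp)
    {g : ℕ} (hR : Fermat.Agent.S18.NonSpecial.RiemannHyp K F g)
    [HasPrincipalDivisors K F] [HasPrincipalDivisors k κ₁] [HasPrincipalDivisors k κ₂]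
    (hdeg₁ : ∀ Q : Place k κ₁, Q.deg = 1) (hdeg₂ : ∀ Q : Place k κ₂, Q.deg = 1)
    (Q₀ : Place K F)
    (haff : ∀ g : F, g ≠ 0 → (∀ v : Place K F, v ≠ Q₀ → 0 ≤ v.ord g) → ∀ i, H.Reg i g)
    {h : F} (hh : h ≠ 0) (D : Divisor K F) (hD : ∀ P : Place K F, D P = P.ord h) (i : ι) :
    H.M i (h / H.zeroProd i D) ∧ R.N i h = R.Z D i := by
  refine H.asa (exists_divisor_total hR.deg_one) (exists_divisor_total hdeg₁)
    (exists_divisor_total hdeg₂) (fun x hx => ?_) hh D hD i
  obtain ⟨g₁, g₂, hg₁, hg₂, hgx, hr₁, -, hr₂⟩ :=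
    Fermat.Agent.S34.RegularQuotient.exists_regular_quotient hR Q₀ 0 le_rfl hx
  exact ⟨g₁, g₂, hg₁, hg₂, hgx, haff g₁ hg₁ hr₁, haff g₂ hg₂ hr₂⟩

end CountDatum

end Fermat.Agent.S34.Nodal.ASAOfLocal
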